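/-
S15 (chief helper299): basic definitions and the statement `RankZero` (interface between the
descent and the endgame).  Blueprint: reports #1210, #1402.  The contracts between the blocks of the
descent are in `S15/Contracts.lean`.

Level `N` (the prime `p` of the frozen statement), `J = JZero N`, `GQ = Gal(ℚ̄/ℚ)`, `r` a prime
dividing the order of the cuspidal class.
-/
import Mathlib
import Fermat.Prelude.Def_ModularCurve_HeckeOperatorTotal
import Fermat.Agent.S24.Defs

set_option autoImplicit false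

noncomputable section

namespace Fermat.Agent.S15

open ModularCurve AlgebraicCurve Fermat.Agent.S24

/-- `Gal(ℚ̄/ℚ)`. -/
abbrev GQ : Type := Kbar ≃ₐ[ℚ] Kbar

theorem end_mul_apply {M : Type*} [AddCommMonoid M] (f g : AddMonoid.End M) (x : M) :
    (f * g) x = f (g x) := rfl

variable (N : ℕ) [NeZero N]

open Classical in
/-- The Hecke operator `T_p` on `J₀(N)` (junk `0` for `p = 0`). -/
def Tp (p : ℕ) : AddMonoid.End (JZero N) :=
  if h : p = 0 then 0 else
    haveI : NeZero p := ⟨h⟩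
    heckeOperatorAlong Kbar N p

/-- The (a priori non commutative) ring of endomorphisms of `J₀(N)` generated by the `T_p`,
`p` prime, `p ∤ M`. -/
def TT (M : ℕ) : Subring (AddMonoid.End (JZero N)) :=
  Subring.closure {t | ∃ p : ℕ, p.Prime ∧ ¬ p ∣ M ∧ t = Tp N p}

/-- `P` is a rational point. -/
def IsRat (P : JZero N) : Prop := ∀ σ : GQ, σ • P = P

/-- `R` is an `n`-division point of a rational point. -/
def IsDivPt (n : ℕ) (R : JZero N) : Prop := IsRat N (n • R)

/-- The Eisenstein part of `J₀(N)[r]`: the generalised eigenspace `T_p = 1 + p`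
(`p` prime, `p ∤ N r`). -/
def Eis (r : ℕ) : AddSubgroup (JZero N) where
  carrier := {x | r • x = 0 ∧ ∀ p : ℕ, p.Prime → ¬ p ∣ N * r →
    ∃ k : ℕ, ((Tp N p - ((1 + p : ℕ) : AddMonoid.End (JZero N))) ^ k) x = 0}
  zero_mem' := ⟨smul_zero _, fun _ _ _ => ⟨0, map_zero _⟩⟩
  add_mem' := by
    rintro x y ⟨hx, hx'⟩ ⟨hy, hy'⟩
    refine ⟨by rw [nsmul_add, hx, hy, add_zero], fun p hp hpN => ?_⟩
    obtain ⟨k, hk⟩ := hx' p hp hpN
    obtain ⟨l, hl⟩ := hy' p hp hpN
    refine ⟨k + l, ?_⟩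
    rw [map_add]
    have h1 : ((Tp N p - ((1 + p : ℕ) : AddMonoid.End (JZero N))) ^ (k + l)) x = 0 := by
      rw [add_comm k l, pow_add, end_mul_apply, hk, map_zero]
    have h2 : ((Tp N p - ((1 + p : ℕ) : AddMonoid.End (JZero N))) ^ (k + l)) y = 0 := by
      rw [pow_add, end_mul_apply, hl, map_zero]
    rw [h1, h2, add_zero]
  neg_mem' := by
    rintro x ⟨hx, hx'⟩
    refine ⟨by rw [neg_nsmul, hx, neg_zero], fun p hp hpN => ?_⟩
    obtain ⟨k, hk⟩ := hx' p hp hpN
    exact ⟨k, by rw [map_neg, hk, neg_zero]⟩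

/-- `σ` acts on the `r`-th roots of unity as the `k`-th power. -/
def ActsOnMu (r : ℕ) (σ : GQ) (k : ℕ) : Prop := ∀ ζ : Kbar, ζ ^ r = 1 → σ ζ = ζ ^ k

/-! ## The deliverable of the descent (blocks Sel, Q, FIN, ADM, Pair, LocL, LocN, LocR, LocInf) -/

/-- **RankZero**: the Eisenstein part of `J₀(N)(ℚ)` is finite, in the form needed by the endgame. -/
def RankZero : Prop :=
  ∀ (c : JZero N) (r : ℕ), r.Prime → r ≠ N → 0 < addOrderOf c → r ∣ addOrderOf c → IsRat N c →
    (∀ p : ℕ, p.Prime → ¬ p ∣ N → Tp N p c = (1 + p) • c) →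
    ∃ t ∈ TT N (N * r), ∃ d : ℤ, t c = d • c ∧ ¬ (r : ℤ) ∣ d ∧
      ∀ P : JZero N, IsRat N P → ∃ m : ℕ, 0 < m ∧ m • t P = 0

end Fermat.Agent.S15

end
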