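/-
S15 (chief helper299): the CONTRACTS between the blocks of the descent.  Every `def ... : Prop`
below is the deliverable of one block; `S15/RankZero.lean` assembles them.
Blueprint: reports #1210, #1402, #1369 (condition FL at `r`).
-/
import Mathlib
import Fermat.Prelude.Def_FLTPrelim_Ramification
import Fermat.Prelude.Def_EllipticCurve_FrobeniusTrace
import Fermat.Prelude.Def_GaloisRep_ComplexConjugation
import Fermat.Agent.S15.Defs
import Fermat.Agent.S19.Weil.Defs
import Fermat.Agent.S19.Loc.Defs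

set_option autoImplicit false

noncomputable section

namespace Fermat.Agent.S15

open ModularCurve AlgebraicCurve Fermat.Agent.S24 Fermat.Agent.S19.Weil

variable (N : ℕ) [NeZero N]

/-! ## Contracts: Hecke operators (block HJ) -/

/-- `T_p` commutes with the Galois action. -/
def HeckeGalois : Prop :=
  ∀ p : ℕ, p.Prime → ¬ p ∣ N → ∀ (σ : GQ) (x : JZero N), Tp N p (σ • x) = σ • Tp N p x

/-- The `T_p` commute on the `n`-torsion. -/
def HeckeCommTors (n : ℕ) : Prop :=
  ∀ p q : ℕ, p.Prime → q.Prime → ¬ p ∣ N → ¬ q ∣ N → ∀ x : JZero N, n • x = 0 →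
    Tp N p (Tp N q x) = Tp N q (Tp N p x)

/-- Eichler-Shimura on the `n`-torsion. -/
def EichlerShimuraTors (n : ℕ) : Prop :=
  ∀ p : ℕ, p.Prime → ¬ p ∣ N * n → ∀ A : ValuationSubring Kbar, A.LiesOverPrime p →
    ∀ φ : GQ, A.IsFrobeniusAt φ p → ∀ x : JZero N, n • x = 0 →
      φ • φ • x - Tp N p (φ • x) + p • x = 0

/-- Every point is defined over a number field. -/
def OpenStab : Prop :=
  ∀ x : JZero N, ∃ L : IntermediateField ℚ Kbar, FiniteDimensional ℚ L ∧
    ∀ σ ∈ L.fixingSubgroup, σ • x = x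

/-! ## Contracts: local conditions satisfied by the Kummer cocycles `τ ↦ τ R - R` -/

/-- **LocL**: unramified outside `r N`. -/
def LocL (r : ℕ) : Prop :=
  ∀ ℓ : ℕ, ℓ.Prime → ¬ ℓ ∣ N * r → ∀ A : ValuationSubring Kbar, A.LiesOverPrime ℓ →
    ∀ τ ∈ A.inertiaSubgroupIn ℚ, ∀ R : JZero N, IsDivPt N r R → τ • R = R

/-- **LocN**: the values of the Kummer cocycles on the inertia group at `N` are isotropic. -/
def LocN (r : ℕ) : Prop :=
  ∀ A : ValuationSubring Kbar, A.LiesOverPrime N →
    ∀ τ ∈ A.inertiaSubgroupIn ℚ, ∀ τ' ∈ A.inertiaSubgroupIn ℚ,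
      ∀ R R' : JZero N, IsDivPt N r R → IsDivPt N r R' →
        weil r (τ • R - R) (τ' • R' - R') = 1

/-- **LocInf** (used for `r = 2`): the values at the complex conjugation are isotropic. -/
def LocInf : Prop :=
  ∀ R R' : JZero N, IsDivPt N 2 R → IsDivPt N 2 R' →
    weil 2 (complexConjugation • R - R) (complexConjugation • R' - R') = 1

/-- **LocFL = (F3) of #1369**: the Kummer cocycles are "finite flat" at `r`: their matrix coefficients
`s ↦ e_r(s R - R, s w)` lie in the algebra `S_I = {s ↦ ∑ a_k s(c_k)}` of S19/Loc. -/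
def LocFL (r : ℕ) : Prop :=
  ∀ A : ValuationSubring Kbar, A.LiesOverPrime r →
    ∀ R : JZero N, IsDivPt N r R → ∀ w : JZero N, r • w = 0 →
      Fermat.Agent.S19.IsSI A (fun s : GQ => weil r (s • R - R) (s • w))

end Fermat.Agent.S15

end
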