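/-
S15 (chief helper299): the remaining CONTRACTS on `G = Eis N r`, in the shapes consumed by the assembly
`S15/RankZero.lean` (which runs on helper67's `Sel.card_le`, `Sel.exists_monic_of_card_le`,
`Sel.chain_of_nilCond`).
-/
import Fermat.Agent.S15.Contracts
import Fermat.Agent.S15.Sel.Adm.Top

set_option autoImplicit false

noncomputable section

namespace Fermat.Agent.S15

open ModularCurve Fermat.Agent.S24 Fermat.Agent.S19.Weil

variable (N : ℕ) [NeZero N]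

/-- **EPS** (block Eps): the projector on the Eisenstein part, as an element of the ring generated by the
`T_p`. -/
def EpsExists (r : ℕ) : Prop :=
  ∃ ε ∈ TT N (N * r), (∀ x : JZero N, r • x = 0 → ε x ∈ Eis N r) ∧ ∀ x ∈ Eis N r, ε x = x

/-- **ADM** (block Adm): `(σ - 1)^n (σ - χ(σ))^n = 0` on the Eisenstein part. -/
def AdmEis (r : ℕ) : Prop :=
  ∀ ζ : Kbar, IsPrimitiveRoot ζ r → Sel.NilCond ζ (Eis N r)

/-- **PAIR-1** (block Pair): the Weil pairing is nondegenerate on the Eisenstein part. -/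
def WeilNondegEis (r : ℕ) : Prop :=
  ∀ x ∈ Eis N r, x ≠ 0 → ∃ y ∈ Eis N r, weil r x y ≠ 1

/-- **PAIR-2** (block Pair, abstract): an isotropic subgroup `X` of a finite group `G` with a
nondegenerate bimultiplicative pairing has `|X|² ≤ |G|`. -/
def IsotropicBound : Prop :=
  ∀ (J : Type) [AddCommGroup J] (G X : AddSubgroup J) (e : J → J → Kbar), (G : Set J).Finite →
    X ≤ G →
    (∀ x ∈ G, ∀ x' ∈ G, ∀ y ∈ G, e (x + x') y = e x y * e x' y) →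
    (∀ x ∈ G, ∀ y ∈ G, ∀ y' ∈ G, e x (y + y') = e x y * e x y') →
    (∀ x ∈ G, ∀ y ∈ G, e x y ≠ 0) →
    (∀ x ∈ G, x ≠ 0 → ∃ y ∈ G, e x y ≠ 1) →
    (∀ x ∈ X, ∀ y ∈ X, e x y = 1) →
    Nat.card X * Nat.card X ≤ Nat.card G

/-- **PAIR-3** (block Pair, abstract): every character of `G` is `e (·, w)`. -/
def CharIsPairing : Prop :=
  ∀ (J : Type) [AddCommGroup J] (G : AddSubgroup J) (e : J → J → Kbar) (r : ℕ), 0 < r →
    (G : Set J).Finite → (∀ x ∈ G, r • x = 0) →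
    (∀ x ∈ G, ∀ x' ∈ G, ∀ y ∈ G, e (x + x') y = e x y * e x' y) →
    (∀ x ∈ G, ∀ y ∈ G, ∀ y' ∈ G, e x (y + y') = e x y * e x y') →
    (∀ x ∈ G, ∀ y ∈ G, e x y ≠ 0) →
    (∀ y ∈ G, y ≠ 0 → ∃ x ∈ G, e x y ≠ 1) →
    ∀ lam : J → Kbar, Sel.IsChar r G lam → ∃ w ∈ G, ∀ x ∈ G, lam x = e x w

/-- **PAIR-4** (block Pair, abstract): a generalised eigenspace of `σ₀` for the eigenvalue `k`, where
`σ₀ ζ = ζ ^ k ≠ ζ`, is isotropic for an equivariant pairing with values in `μ_r`. -/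
def EigenIsotropic : Prop :=
  ∀ (J : Type) [AddCommGroup J] [DistribMulAction GQ J] (G : AddSubgroup J) (e : J → J → Kbar)
    (r : ℕ), r.Prime → (∀ x ∈ G, r • x = 0) → (∀ σ : GQ, ∀ x ∈ G, σ • x ∈ G) →
    (∀ x ∈ G, ∀ x' ∈ G, ∀ y ∈ G, e (x + x') y = e x y * e x' y) →
    (∀ x ∈ G, ∀ y ∈ G, ∀ y' ∈ G, e x (y + y') = e x y * e x y') →
    (∀ x ∈ G, ∀ y ∈ G, e x y ≠ 0) →
    (∀ σ : GQ, ∀ x ∈ G, ∀ y ∈ G, e (σ • x) (σ • y) = σ (e x y)) →
    ∀ (ζ : Kbar), IsPrimitiveRoot ζ r → ∀ (σ₀ : GQ) (k n : ℕ), σ₀ ζ = ζ ^ k → ζ ^ k ≠ ζ →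
    ∀ x ∈ G, ∀ y ∈ G, (fun z : J => σ₀ • z - k • z)^[n] x = 0 →
      (fun z : J => σ₀ • z - k • z)^[n] y = 0 → e x y = 1

/-- **F1** (block FL), multiplicative shape. -/
def F1Statement : Prop :=
  ∀ (r : ℕ), r.Prime → r ≠ 2 → ∀ A : ValuationSubring Kbar, A.LiesOverPrime r →
    ∀ h : GQ → Kbar, (∀ σ τ, h (σ * τ) = h σ * h τ) → (∀ σ, h σ ^ r = 1) →
      Fermat.Agent.S19.IsSI A (fun s => s (h s⁻¹)) → ∀ τ ∈ A.inertiaSubgroupIn ℚ, h τ = 1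

/-- **F2** (block FL). -/
def F2Statement : Prop :=
  ∀ (r : ℕ), r.Prime → ∀ A : ValuationSubring Kbar, A.LiesOverPrime r →
    ∀ (a : ℚ), a ≠ 0 → ∀ α : Kbar, α ^ r = algebraMap ℚ Kbar a →
      Fermat.Agent.S19.IsSI A (fun s : GQ => α / s α) → (r : ℤ) ∣ padicValRat r a

end Fermat.Agent.S15

end
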