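/-
S15 (chief helper299): **the assembly of the descent**: the contracts give `RankZero N`.
-/
import Fermat.Agent.S15.Asm.Count

set_option autoImplicit false

noncomputable section

namespace Fermat.Agent.S15

open ModularCurve AlgebraicCurve Fermat.Agent.S24 Fermat.Agent.S15.Sel Polynomial

variable {N : ℕ} [NeZero N]

/-- the `r`-part of an Eisenstein class lies in `Eis N r` -/
theorem smul_mem_eis {c : JZero N} {r m : ℕ} (hm : (r * m) • c = 0)
    (hc : ∀ p : ℕ, p.Prime → ¬ p ∣ N → Tp N p c = (1 + p) • c) : m • c ∈ Eis N r := by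
  refine ⟨by rw [← mul_nsmul']; exact hm, fun p hp hpN => ⟨1, ?_⟩⟩
  have hpN' : ¬ p ∣ N := fun h => hpN (h.mul_right r)
  rw [pow_one]
  show Tp N p (m • c) - ((1 + p : ℕ) : AddMonoid.End (JZero N)) (m • c) = 0
  rw [map_nsmul, hc p hp hpN', sub_eq_zero, AddMonoid.End.natCast_apply, nsmul_left_comm]

/-- **RankZero from the contracts.** -/
theorem rankZero_of (hN : N.Prime)
    (hMW : AddGroup.FG ↥(FixedPoints.addSubgroup GQ (JZero N))) (hHG : HeckeGalois N)
    (hEps : ∀ r : ℕ, r.Prime → r ≠ N → EpsExists N r)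
    (hI : ∀ r : ℕ, r.Prime → r ≠ N → Inputs N r) : RankZero N := by
  intro c r hr hrN hc0 hrc hcrat hceis
  obtain ⟨ε, hεT, h1, h2⟩ := hEps r hr hrN
  have hNM : N ∣ N * r := Dvd.intro _ rfl
  have S : Setup N r ε := ⟨hr, hN, hrN, fun σ x => TT_comm_gal hHG hNM hεT σ x, h1, h2⟩
  obtain ⟨hfin, hcard⟩ := S.count (hI r hr hrN)
  have heq : epsTors r ε = Eis N r := by
    ext x
    constructor
    · rintro ⟨hx1, hx2⟩
      rw [← hx2]
      exact h1 x hx1
    · intro hx
      exact ⟨hx.1, h2 x hx⟩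
  have hfinG : Finite (epsTors r ε) := by
    rw [heq]
    exact (finite_eis hr.pos).to_subtype
  obtain ⟨f, -, hf2, hf3⟩ := exists_monic_of_card_le (Γ := GQ) r hr ε S.comm
    (fun x hx => h2 _ (h1 x hx))
    (fun x => Fermat.Agent.S17.W.exists_nsmul_eq_JZero N r hr.pos x)
    ((AddGroup.fg_iff_addSubgroup_fg _).1 hMW)
    ((kumGroup GQ r ε : AddSubgroup (GQ → JZero N)) : Set (GQ → JZero N))
    (Set.toFinite _) (fun R hR => ⟨R, hR, rfl⟩)
    (by rw [heq, ← Nat.card_coe_set_eq]; exact hcard)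
  obtain ⟨d, hd⟩ := TT_eigen hNM c hceis hεT
  refine exists_t_of_poly (TT N (N * r)) hεT hr hf2 hd ?_ (IsRat N) (fun P hP => hf3 P hP)
  -- `d ≡ 1` modulo `r`
  obtain ⟨m, hm⟩ := hrc
  have hm0 : 0 < m := by
    rcases Nat.eq_zero_or_pos m with h | h
    · rw [h, mul_zero] at hm
      omega
    · exact h
  have hmem : m • c ∈ Eis N r := smul_mem_eis (by rw [← hm]; exact addOrderOf_nsmul_eq_zero c) hceis
  have h3 := h2 _ hmem
  rw [map_nsmul, hd] at h3
  have h4 : ((d - 1) * m) • c = 0 := by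
    rw [sub_mul, sub_zsmul, ← sub_eq_add_neg, one_mul, natCast_zsmul, sub_eq_zero, ← h3, mul_comm,
      mul_zsmul, natCast_zsmul]
  have h5 := (addOrderOf_dvd_iff_zsmul_eq_zero).2 h4
  rw [hm] at h5
  push_cast at h5
  exact Int.dvd_of_mul_dvd_mul_right (by exact_mod_cast hm0.ne') h5

end Fermat.Agent.S15

end
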