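/-
S15 (chief helper299): **`RankZero N` unconditionally** (`N ≥ 5` prime): all the contracts are plugged into
`rankZero_of`.
-/
import Fermat.Agent.S15.RankZero
import Fermat.Agent.S15.HJ.Red
import Fermat.Agent.S15.HJ.Equiv
import Fermat.Agent.S15.HJ.OpenStab
import Fermat.Agent.S15.HJ.Comm
import Fermat.Agent.S15.Eps.Exists
import Fermat.Agent.S15.Adm.Inst
import Fermat.Agent.S15.Pair.Contracts
import Fermat.Agent.S15.FL.Statements
import Fermat.Agent.S15.Inv.LocFL
import Fermat.Agent.S15.LocN.Contract
import Fermat.Agent.S15.Oo.LocInf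
import Fermat.Agent.S34.Nodal.Inst.Top.Close
import Fermat.Agent.S17

set_option autoImplicit false

namespace Fermat.Agent.S15

open ModularCurve

/-- all the inputs of the Selmer count -/
theorem inputs (N : ℕ) [NeZero N] (hN : N.Prime) (r : ℕ) (hr : r.Prime) (hrN : r ≠ N) :
    Inputs N r where
  openStab := openStab N
  locL := locL N r
  locN := locN_of_nodalTarget Fermat.Agent.S34.Nodal.Inst.Top.nodalTarget hN hr hrN
  locFL := Inv.locFL N r hr (fun h => hrN ((Nat.prime_dvd_prime_iff_eq hr hN).1 h))
  locInf := locInf N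
  adm := fun ζ hζ => Adm.nilCond_eis N r hr (heckeGalois N) (eichlerShimuraTors N r) ζ hζ
  nondeg := Pair.weilNondegEis N hr.pos (eichlerShimuraTors N r) (heckeCommTors N r)
    (Eps.epsExists N r hr.pos (heckeCommTors N r))
  isoBound := Pair.isotropicBound
  charPair := Pair.charIsPairing
  eigenIso := Pair.eigenIsotropic
  f1 := FL.f1Statement
  f2 := FL.f2Statement

/-- **The Eisenstein quotient has rank zero.** -/
theorem rankZero (N : ℕ) [NeZero N] (hN : N.Prime) (hN5 : 5 ≤ N) : RankZero N :=
  rankZero_of hN (Fermat.Agent.S17.result N hN hN5) (heckeGalois N)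
    (fun r hr _ => Eps.epsExists N r hr.pos (heckeCommTors N r))
    (fun r hr hrN => inputs N hN r hr hrN)

end Fermat.Agent.S15
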